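/-
MLT / [L1] case (C), ORDINARY case (helper9): fork of `Lib/Ihara/E/Out.lean` with the condition at `p`
`IsOrdinaryAt p` (`p ∤ N`, S32) replaced by `IsOrdinaryAt p` (`p ∥ N` and `ρbar` ordinary at `p`, S33).  Generated by a
rename script from the frozen file: only the declarations depending on the condition at `p` are repeated,
with the prefix `ih`/`Ih` replaced by `kh`/`Kh`.
-/
import Mathlib
import Fermat.Agent.Lib.Ihara.E.Main
import Fermat.Agent.Lib.MLT.CO.I.E.Main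
import Fermat.Agent.Lib.Ihara.Glue.Out
import Fermat.Agent.Lib.MLT.CO.I.Glue.Out
import Fermat.Agent.Lib.MLT.CO.I.Glue.Rep
import Fermat.Agent.Lib.MLT.CO.I.Img.Rep
import Fermat.Agent.Lib.Ihara.E.Out

set_option autoImplicit false
set_option linter.unusedSectionVars false
set_option linter.unusedVariables false
set_option linter.style.haveILetI false

open IsLocalRing Matrix Polynomial Fermat.Agent.S53Lib Fermat.Agent.TW
open Matrix MatrixGroups CongruenceSubgroup ModularCurve ModularCurve.Period Module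
open Fermat.Agent.DS Fermat.Agent.T1 Fermat.Agent.T1G Fermat.Agent.T2

namespace Fermat.Agent.Ihara

local notation "Qbar" => AlgebraicClosure ℚ
local notation "GQ" => (AlgebraicClosure ℚ ≃ₐ[ℚ] AlgebraicClosure ℚ)

section Out

variable (O : Type) [CommRing O] [IsDomain O] [IsDiscreteValuationRing O] [CharZero O]
  [IsAdicComplete (IsLocalRing.maximalIdeal O) O] [Finite (ResidueField O)]
  (M : ℕ) [NeZero M] (hM : 6 ≤ M)
  (H : Subgroup (ZMod M)ˣ) (Ps : Set ℕ) (θ₀ : ℕ → O)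
  (p : ℕ) [Fact p.Prime]
  (Δ₁ : Subgroup ((ZMod M)ˣ ⧸ H)) (χ : Δ₁ →* O)
  {N' : ℕ} [NeZero N'] (S : Finset ℕ) (z : ℕ → (ZMod M)ˣ)
  (ρbar : ResidualGaloisRep (ResidueField O))
  (b : Module.Basis (Fin 2) (ResidueField O) ρbar.V) (Smin : Finset ℕ)

/-- `KhkOut` (helper7) and `KheDatum` (lead) are the same thing -/
theorem kheDatum_iff_out
    (a : CuspForm.heckeAlgebra N' 2 (↑S : Set ℕ) →+* Module.End O (IhmChiPart O M hM H Ps θ₀ Δ₁ χ))
    (θ' : CuspForm.heckeAlgebra N' 2 (↑S : Set ℕ) →+* ResidueField O)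
    (hpart : ihdPart O a θ' = ⊤) [Nontrivial ↥(ihdPart O a θ')]
    (rA : GQ →* Matrix (Fin 2) (Fin 2) (IhdImg O a θ')) (hcts : MatCts (IhdImg O a θ') rA) :
    KheDatum O M hM H Ps θ₀ p Δ₁ χ S z ρbar b Smin a θ' hpart rA hcts ↔
      KhkOut O M hM H Ps θ₀ Δ₁ χ z p ρbar b Smin a θ' hpart rA hcts := by
  constructor
  · rintro ⟨h1, h2, h3, h4, h5, h6, h7, h8, h9, h10⟩
    exact ⟨h1, h2, h3, h4, h5, h6, h7, h8, h9, h10⟩
  · intro out
    exact ⟨out.hecke, out.theta, out.dia_comm, out.map_comm, out.res_surj, out.strict, out.tw,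
      out.traceDet, out.trace_frob, out.det⟩

end Out

section Field

variable (O : Type) [CommRing O] [IsDomain O] [IsDiscreteValuationRing O] [CharZero O]
  [IsAdicComplete (IsLocalRing.maximalIdeal O) O] [Finite (ResidueField O)]
  (M : ℕ) [NeZero M] (hM : 6 ≤ M)
  (H : Subgroup (ZMod M)ˣ) (Ps : Set ℕ) (θ₀ : ℕ → O)
  {p : ℕ} [Fact p.Prime] (hL : IhfLevel p M H) (hpO : (p : O) ∈ IsLocalRing.maximalIdeal O)
  (Δ₁ : Subgroup ((ZMod M)ˣ ⧸ H)) (χ χ'' : Δ₁ →* O)
  (ϖ : O) (hϖ : (Ideal.span {ϖ}).IsMaximal) (hχ : ∀ g : Δ₁, χ g - χ'' g ∈ Ideal.span {ϖ})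

end Field

end Fermat.Agent.Ihara
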